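/-
S26 / block UFD (architect helper86), leaf U3 (proof helper70): a power series which is regular in
`X` over a complete local factorial ring is a product of primes (Weierstrass preparation).
-/
import Mathlib

set_option autoImplicit false

open scoped Polynomial PowerSeries

namespace Fermat.Agent.S26.UFD

/-- a monic divisor of a distinguished polynomial is distinguished -/
theorem weierstrass_isDistinguishedAt_of_dvd {A : Type*} [CommRing A] {I : Ideal A} [I.IsPrime]
    {P Q : A[X]} (hP : P.IsDistinguishedAt I) (hQ : Q.Monic) (hdvd : Q ∣ P) :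
    Q.IsDistinguishedAt I := by
  have h1 : Q.map (Ideal.Quotient.mk I) ∣ Polynomial.X ^ P.natDegree := by
    rw [← hP.map_eq_X_pow]
    exact Polynomial.map_dvd _ hdvd
  obtain ⟨e, -, he⟩ := (dvd_prime_pow Polynomial.prime_X _).1 h1
  have h2 : Q.map (Ideal.Quotient.mk I) = Polynomial.X ^ e :=
    Polynomial.eq_of_monic_of_associated (hQ.map _) (Polynomial.monic_X_pow e) he
  have h3 : e = Q.natDegree := by
    have := congrArg Polynomial.natDegree h2
    rw [hQ.natDegree_map, Polynomial.natDegree_X_pow] at this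
    exact this.symm
  refine ⟨⟨fun {n} hn => ?_⟩, hQ⟩
  have h4 := congrArg (fun R => Polynomial.coeff R n) h2
  simp only [Polynomial.coeff_map, Polynomial.coeff_X_pow] at h4
  rw [if_neg (by omega)] at h4
  exact Ideal.Quotient.eq_zero_iff_mem.1 h4

/-- a monic polynomial over a factorial ring is a product of monic primes -/
theorem weierstrass_exists_monic_prime_factors_aux {A : Type*} [CommRing A] [IsDomain A]
    (f : Multiset A[X]) : (∀ b ∈ f, Prime b) → ∀ P : A[X], P.Monic → Associated f.prod P →
      ∃ s : Multiset A[X], (∀ Q ∈ s, Prime Q ∧ Q.Monic) ∧ s.prod = P := by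
  induction f using Multiset.induction_on with
  | empty =>
    intro _ P hP hass
    rw [Multiset.prod_zero] at hass
    have hu : IsUnit P := hass.isUnit isUnit_one
    exact ⟨0, by simp, by rw [Multiset.prod_zero, hP.eq_one_of_isUnit hu]⟩
  | cons b f ih =>
    intro hf P hP hass
    rw [Multiset.prod_cons] at hass
    have hb : Prime b := hf b (Multiset.mem_cons_self b f)
    obtain ⟨c, hc⟩ : b ∣ P := (Dvd.intro _ rfl).trans hass.dvd
    have h2 : b.leadingCoeff * c.leadingCoeff = 1 := by
      rw [← Polynomial.leadingCoeff_mul, ← hc, hP.leadingCoeff]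
    have hCu : IsUnit (Polynomial.C c.leadingCoeff) :=
      Polynomial.isUnit_C.2 (IsUnit.of_mul_eq_one _ (by rw [mul_comm]; exact h2))
    have hb'ass : Associated b (b * Polynomial.C c.leadingCoeff) :=
      associated_mul_unit_right b _ hCu
    have hb'monic : (b * Polynomial.C c.leadingCoeff).Monic := by
      rw [Polynomial.Monic, Polynomial.leadingCoeff_mul, Polynomial.leadingCoeff_C, h2]
    have hP' : P = (b * Polynomial.C c.leadingCoeff) * (Polynomial.C b.leadingCoeff * c) := by
      calc P = b * c := hc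
        _ = b * (Polynomial.C (c.leadingCoeff * b.leadingCoeff) * c) := by
            rw [mul_comm c.leadingCoeff, h2, Polynomial.C_1, one_mul]
        _ = _ := by rw [Polynomial.C_mul]; ring
    have hc'monic : (Polynomial.C b.leadingCoeff * c).Monic := by
      rw [Polynomial.Monic, Polynomial.leadingCoeff_mul, Polynomial.leadingCoeff_C, h2]
    have hass' : Associated f.prod (Polynomial.C b.leadingCoeff * c) := by
      rw [hP'] at hass
      exact hass.of_mul_left hb'ass hb.ne_zero
    obtain ⟨s, hs, hsp⟩ := ih (fun x hx => hf x (Multiset.mem_cons_of_mem hx)) _ hc'monic hass'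
    refine ⟨(b * Polynomial.C c.leadingCoeff) ::ₘ s, ?_, ?_⟩
    · intro Q hQ
      rcases Multiset.mem_cons.1 hQ with rfl | hQ
      · exact ⟨hb'ass.prime hb, hb'monic⟩
      · exact hs Q hQ
    · rw [Multiset.prod_cons, hsp, ← hP']

theorem weierstrass_exists_monic_prime_factors {A : Type*} [CommRing A] [IsDomain A]
    [UniqueFactorizationMonoid A] {P : A[X]} (hP : P.Monic) :
    ∃ s : Multiset A[X], (∀ Q ∈ s, Prime Q ∧ Q.Monic) ∧ s.prod = P := by
  obtain ⟨f, hf, hfP⟩ := UniqueFactorizationMonoid.exists_prime_factors P hP.ne_zero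
  exact weierstrass_exists_monic_prime_factors_aux f hf P hP hfP

/-- a distinguished polynomial which is prime in `A[X]` is prime in `A⟦X⟧` -/
theorem weierstrass_prime_coe {A : Type*} [CommRing A] [IsDomain A] {I : Ideal A}
    [IsAdicComplete I A] {Q : A[X]} (hQ : Q.IsDistinguishedAt I) (hp : Prime Q) :
    Prime (Q : A⟦X⟧) := by
  have h0 : (Q : A⟦X⟧) ≠ 0 := by
    rw [Ne, Polynomial.coe_eq_zero_iff]
    exact hp.ne_zero
  have h1 : (Ideal.span {Q}).IsPrime := (Ideal.span_singleton_prime hp.ne_zero).2 hp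
  have h2 : IsDomain (A[X] ⧸ Ideal.span {Q}) := Ideal.Quotient.isDomain _
  have h3 : IsDomain (A⟦X⟧ ⧸ Ideal.span {(Q : A⟦X⟧)}) :=
    hQ.algEquivQuotient.symm.toMulEquiv.isDomain _
  exact (Ideal.span_singleton_prime h0).1 ((Ideal.Quotient.isDomain_iff_prime _).1 h3)

theorem exists_prime_factors_of_map_ne_zero (A : Type*) [CommRing A] [IsDomain A] [IsLocalRing A]
    [UniqueFactorizationMonoid A] [IsAdicComplete (IsLocalRing.maximalIdeal A) A]
    (f : A⟦X⟧) (hf : f.map (IsLocalRing.residue A) ≠ 0) :
    ∃ s : Multiset A⟦X⟧, (∀ p ∈ s, Prime p) ∧ Associated s.prod f := by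
  obtain ⟨P, h, hP, hh, hfP⟩ := PowerSeries.exists_isWeierstrassFactorization hf
  obtain ⟨s, hs, hsP⟩ := weierstrass_exists_monic_prime_factors hP.monic
  refine ⟨s.map (Polynomial.coeToPowerSeries.ringHom : A[X] →+* A⟦X⟧), ?_, ?_⟩
  · intro p hp
    obtain ⟨Q, hQ, rfl⟩ := Multiset.mem_map.1 hp
    have hdvd : Q ∣ P := hsP ▸ Multiset.dvd_prod hQ
    exact weierstrass_prime_coe (weierstrass_isDistinguishedAt_of_dvd hP (hs Q hQ).2 hdvd)
      (hs Q hQ).1
  · rw [← map_multiset_prod, hsP, hfP]
    exact associated_mul_unit_right _ h hh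

end Fermat.Agent.S26.UFD
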