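/-
S26 / block UFD, leaf U6b: a ring map inducing bijections modulo all powers induces an isomorphism of
the adic completions.  Mathlib only.
-/
import Mathlib

set_option autoImplicit false

namespace Fermat.Agent.S26.UFD

theorem completionIso_factorPow_evalₐ {P : Type*} [CommRing P] (I : Ideal P) {m n : ℕ} (hle : m ≤ n)
    (x : AdicCompletion I P) :
    Ideal.Quotient.factorPow I hle (AdicCompletion.evalₐ I n x) = AdicCompletion.evalₐ I m x := by
  obtain ⟨a, rfl⟩ := AdicCompletion.mk_surjective I P x
  rw [AdicCompletion.evalₐ_mk, AdicCompletion.evalₐ_mk]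
  exact AdicCompletion.Ideal.mk_eq_mk I hle a

theorem completionIso_compat {P R : Type*} [CommRing P] [CommRing R] (I : Ideal P) (J : Ideal R)
    (q : ∀ k, P ⧸ I ^ k →+* R ⧸ J ^ k)
    (hq : ∀ {m n : ℕ} (hle : m ≤ n) (x : P ⧸ I ^ n),
      Ideal.Quotient.factorPow J hle (q n x) = q m (Ideal.Quotient.factorPow I hle x))
    {m n : ℕ} (hle : m ≤ n) :
    (Ideal.Quotient.factorPow J hle).comp ((q n).comp (AdicCompletion.evalₐ I n).toRingHom) =
      (q m).comp (AdicCompletion.evalₐ I m).toRingHom :=
  RingHom.ext fun x => by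
    change Ideal.Quotient.factorPow J hle (q n (AdicCompletion.evalₐ I n x)) =
      q m (AdicCompletion.evalₐ I m x)
    rw [hq hle, completionIso_factorPow_evalₐ]

/-- the map of completions induced by a compatible family of maps of the quotients -/
noncomputable def completionIsoMap {P R : Type*} [CommRing P] [CommRing R] (I : Ideal P) (J : Ideal R)
    (q : ∀ k, P ⧸ I ^ k →+* R ⧸ J ^ k)
    (hq : ∀ {m n : ℕ} (hle : m ≤ n) (x : P ⧸ I ^ n),
      Ideal.Quotient.factorPow J hle (q n x) = q m (Ideal.Quotient.factorPow I hle x)) :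
    AdicCompletion I P →+* AdicCompletion J R :=
  AdicCompletion.liftRingHom J (fun k => (q k).comp (AdicCompletion.evalₐ I k).toRingHom)
    (fun hle => completionIso_compat I J q hq hle)

theorem evalₐ_completionIsoMap {P R : Type*} [CommRing P] [CommRing R] (I : Ideal P) (J : Ideal R)
    (q : ∀ k, P ⧸ I ^ k →+* R ⧸ J ^ k)
    (hq : ∀ {m n : ℕ} (hle : m ≤ n) (x : P ⧸ I ^ n),
      Ideal.Quotient.factorPow J hle (q n x) = q m (Ideal.Quotient.factorPow I hle x))
    (k : ℕ) (x : AdicCompletion I P) :
    AdicCompletion.evalₐ J k (completionIsoMap I J q hq x) = q k (AdicCompletion.evalₐ I k x) :=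
  AdicCompletion.evalₐ_liftRingHom J (fun k => (q k).comp (AdicCompletion.evalₐ I k).toRingHom)
    (fun hle => completionIso_compat I J q hq hle) k x

/-- U6b : a ring map inducing bijections modulo all powers induces an isomorphism of completions. -/
theorem nonempty_adicCompletion_ringEquiv (P R : Type*) [CommRing P] [CommRing R] (φ : P →+* R)
    (I : Ideal P) (J : Ideal R) (hIJ : ∀ k, I ^ k ≤ (J ^ k).comap φ)
    (h : ∀ k, Function.Bijective (Ideal.quotientMap (J ^ k) φ (hIJ k))) :
    Nonempty (AdicCompletion I P ≃+* AdicCompletion J R) := by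
  let e : ∀ k, P ⧸ I ^ k ≃+* R ⧸ J ^ k := fun k =>
    RingEquiv.ofBijective (Ideal.quotientMap (J ^ k) φ (hIJ k)) (h k)
  have he : ∀ {m n : ℕ} (hle : m ≤ n) (x : P ⧸ I ^ n),
      Ideal.Quotient.factorPow J hle ((e n).toRingHom x) =
        (e m).toRingHom (Ideal.Quotient.factorPow I hle x) := by
    intro m n hle x
    obtain ⟨y, rfl⟩ := Ideal.Quotient.mk_surjective x
    rfl
  have he' : ∀ {m n : ℕ} (hle : m ≤ n) (x : R ⧸ J ^ n),
      Ideal.Quotient.factorPow I hle ((e n).symm.toRingHom x) =
        (e m).symm.toRingHom (Ideal.Quotient.factorPow J hle x) := by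
    intro m n hle x
    apply (e m).injective
    have h1 := he hle ((e n).symm x)
    have h2 : (e n).toRingHom ((e n).symm x) = x := (e n).apply_symm_apply x
    rw [h2] at h1
    have h3 : e m ((e m).symm.toRingHom (Ideal.Quotient.factorPow J hle x)) =
        Ideal.Quotient.factorPow J hle x := (e m).apply_symm_apply _
    rw [h3, h1]
    rfl
  refine ⟨RingEquiv.ofRingHom
    (completionIsoMap I J (fun k => (e k).toRingHom) he)
    (completionIsoMap J I (fun k => (e k).symm.toRingHom) he') ?_ ?_⟩
  · refine RingHom.ext fun x => AdicCompletion.ext_evalₐ fun k => ?_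
    rw [RingHom.comp_apply, evalₐ_completionIsoMap, evalₐ_completionIsoMap]
    exact (e k).apply_symm_apply _
  · refine RingHom.ext fun x => AdicCompletion.ext_evalₐ fun k => ?_
    rw [RingHom.comp_apply, evalₐ_completionIsoMap, evalₐ_completionIsoMap]
    exact (e k).symm_apply_apply _

end Fermat.Agent.S26.UFD
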