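/-
S26 / block UFD, leaf U2: `K⟦X₁, …, Xₙ⟧` is adically complete for its maximal ideal.
(Mathlib has completeness for the ideal generated by the variables; we identify that ideal with the
maximal ideal.)
-/
import Mathlib

set_option autoImplicit false

namespace Fermat.Agent.S26.UFD

open MvPowerSeries Finsupp

/-- A power series in finitely many (linearly ordered) variables without constant term lies in the
ideal generated by the variables. -/
theorem complete_mem_span_X {R : Type*} [CommRing R] {n : ℕ} (f : MvPowerSeries (Fin n) R)
    (hf : constantCoeff f = 0) :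
    f ∈ Ideal.span (Set.range (X : Fin n → MvPowerSeries (Fin n) R)) := by
  classical
  let g : Fin n → MvPowerSeries (Fin n) R := fun i e =>
    if (e + single i 1).support.min = (i : WithTop (Fin n)) then coeff (e + single i 1) f else 0
  have hg : ∀ i e, coeff e (g i) =
      if (e + single i 1).support.min = (i : WithTop (Fin n)) then coeff (e + single i 1) f
      else 0 := fun _ _ => rfl
  have key : f = ∑ i, X i * g i := by
    ext d
    rw [map_sum]
    simp only [X_def, coeff_monomial_mul, one_mul, hg]
    by_cases hd : d = 0
    · subst hd
      rw [coeff_zero_eq_constantCoeff_apply, hf]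
      symm
      apply Finset.sum_eq_zero
      intro i _
      rw [if_neg]
      intro h
      simpa using h i
    · have hne : d.support.Nonempty := Finsupp.support_nonempty_iff.2 hd
      obtain ⟨m, hm⟩ := Finset.min_of_nonempty hne
      have hmem : m ∈ d.support := Finset.mem_of_min hm
      have hle : single m 1 ≤ d := by
        rw [Finsupp.single_le_iff]
        exact Nat.one_le_iff_ne_zero.2 (Finsupp.mem_support_iff.1 hmem)
      rw [Finset.sum_eq_single m]
      · rw [if_pos hle, tsub_add_cancel_of_le hle, if_pos hm]
      · intro i _ him
        split_ifs with h1 h2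
        · rw [tsub_add_cancel_of_le h1, hm] at h2
          exact absurd (WithTop.coe_injective h2).symm him
        · rfl
        · rfl
      · intro h
        exact absurd (Finset.mem_univ m) h
  rw [key]
  exact Ideal.sum_mem _ fun i _ => Ideal.mul_mem_right _ _ (Ideal.subset_span ⟨i, rfl⟩)

theorem complete_maximalIdeal_eq (K : Type*) [Field K] (n : ℕ) :
    IsLocalRing.maximalIdeal (MvPowerSeries (Fin n) K)
      = Ideal.span (Set.range (X : Fin n → MvPowerSeries (Fin n) K)) := by
  apply le_antisymm
  · intro f hf
    apply complete_mem_span_X
    rw [IsLocalRing.mem_maximalIdeal, mem_nonunits_iff, isUnit_iff_constantCoeff,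
      isUnit_iff_ne_zero, not_not] at hf
    exact hf
  · rw [Ideal.span_le]
    rintro _ ⟨i, rfl⟩
    show X i ∈ IsLocalRing.maximalIdeal (MvPowerSeries (Fin n) K)
    rw [IsLocalRing.mem_maximalIdeal, mem_nonunits_iff, isUnit_iff_constantCoeff, constantCoeff_X]
    exact not_isUnit_zero

theorem isAdicComplete_mvPowerSeries (K : Type*) [Field K] (n : ℕ) :
    IsAdicComplete (IsLocalRing.maximalIdeal (MvPowerSeries (Fin n) K))
      (MvPowerSeries (Fin n) K) := by
  rw [complete_maximalIdeal_eq]
  infer_instance

end Fermat.Agent.S26.UFD
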