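/-
S26 / block UFD, leaf U5 (assembly), conditional form: `K⟦X₁, …, Xₙ⟧` is factorial, from
U3 (Weierstrass preparation + Gauss; uses U2 = completeness) and U4 (change of coordinates).
-/
import Mathlib

set_option autoImplicit false

open scoped Polynomial PowerSeries

namespace Fermat.Agent.S26.UFD

/-- transport of a factorisation into primes along a ring isomorphism -/
theorem powerSeries_exists_prime_factors_of_equiv {R S : Type*} [CommRing R] [CommRing S]
    (e : R ≃+* S) (f : R) (h : ∃ s : Multiset S, (∀ p ∈ s, Prime p) ∧ Associated s.prod (e f)) :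
    ∃ s : Multiset R, (∀ p ∈ s, Prime p) ∧ Associated s.prod f := by
  obtain ⟨s, hs, hsf⟩ := h
  refine ⟨s.map e.symm, ?_, ?_⟩
  · intro p hp
    obtain ⟨q, hq, rfl⟩ := Multiset.mem_map.1 hp
    exact (MulEquiv.prime_iff e.symm.toMulEquiv).2 (hs q hq)
  · have h1 : (s.map e.symm).prod = e.symm s.prod := (map_multiset_prod e.symm s).symm
    rw [h1]
    have h2 := hsf.map (e.symm : S →* R)
    simpa using h2

theorem ufd_mvPowerSeries_of (K : Type*) [Field K]
    (h3 : ∀ n : ℕ, UniqueFactorizationMonoid (MvPowerSeries (Fin n) K) →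
      ∀ f : (MvPowerSeries (Fin n) K)⟦X⟧,
        f.map (IsLocalRing.residue (MvPowerSeries (Fin n) K)) ≠ 0 →
        ∃ s : Multiset (MvPowerSeries (Fin n) K)⟦X⟧, (∀ p ∈ s, Prime p) ∧ Associated s.prod f)
    (h4 : ∀ (n : ℕ) (f : MvPowerSeries (Fin (n + 1)) K), f ≠ 0 →
      ∃ e : MvPowerSeries (Fin (n + 1)) K ≃+* MvPowerSeries (Fin (n + 1)) K,
        (MvPowerSeries.finSuccEquiv K n (e f)).map
          (IsLocalRing.residue (MvPowerSeries (Fin n) K)) ≠ 0) (n : ℕ) :
    UniqueFactorizationMonoid (MvPowerSeries (Fin n) K) := by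
  induction n with
  | zero =>
    exact (MulEquiv.uniqueFactorizationMonoid_iff
      (MvPowerSeries.isEmptyEquiv (Fin 0) K).toRingEquiv.toMulEquiv).2 inferInstance
  | succ n ih =>
    refine UniqueFactorizationMonoid.of_exists_prime_factors fun f hf => ?_
    obtain ⟨e, he⟩ := h4 n f hf
    exact powerSeries_exists_prime_factors_of_equiv
      (e.trans (MvPowerSeries.finSuccEquiv K n).toRingEquiv) f (h3 n ih _ he)

end Fermat.Agent.S26.UFD
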