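/-
S26 / block UFD, leaf U6 (helper120): `R → K[[T_1, …, T_g]]` is faithfully flat.
This file contains the assembly from explicit hypotheses (Mathlib only).
-/
import Mathlib

set_option autoImplicit false

namespace Fermat.Agent.S26.UFD

/-- Faithful flatness is transported along a ring isomorphism (the target gets the transported
algebra structure). -/
theorem completion_exists_faithfullyFlat_of_ringEquiv (R S T : Type*) [CommRing R] [CommRing S]
    [CommRing T] [Algebra R S] [Module.FaithfullyFlat R S] (e : S ≃+* T) :
    ∃ _ : Algebra R T, Module.FaithfullyFlat R T := by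
  let alg : Algebra R T := (e.toRingHom.comp (algebraMap R S)).toAlgebra
  refine ⟨alg, ?_⟩
  let l : T ≃ₗ[R] S :=
    { e.symm.toAddEquiv with
      map_smul' := fun r t => by
        change e.symm (r • t) = r • e.symm t
        rw [Algebra.smul_def, Algebra.smul_def, map_mul]
        congr 1
        exact e.symm_apply_apply _ }
  exact Module.FaithfullyFlat.of_linearEquiv R S l

/-- U6, from the isomorphism of completions (U6a + U6b) and the faithful flatness of the
completion (U6c). -/
theorem exists_faithfullyFlat_mvPowerSeries_of (K : Type*) [Field K] (g : ℕ) (R : Type*)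
    [CommRing R] [IsLocalRing R]
    (hiso : Nonempty (AdicCompletion (MvPolynomial.idealOfVars (Fin g) K)
      (MvPolynomial (Fin g) K) ≃+* AdicCompletion (IsLocalRing.maximalIdeal R) R))
    (hff : Module.FaithfullyFlat R (AdicCompletion (IsLocalRing.maximalIdeal R) R)) :
    ∃ _ : Algebra R (MvPowerSeries (Fin g) K),
      Module.FaithfullyFlat R (MvPowerSeries (Fin g) K) := by
  obtain ⟨e⟩ := hiso
  exact completion_exists_faithfullyFlat_of_ringEquiv R
    (AdicCompletion (IsLocalRing.maximalIdeal R) R) (MvPowerSeries (Fin g) K)
    (e.symm.trans (MvPowerSeries.toAdicCompletionAlgEquiv (Fin g) K).symm.toRingEquiv)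

end Fermat.Agent.S26.UFD
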