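/-
S26 / block UFD, leaf U6a (helper274): `K[T]/(T)^k → R/m^k` is bijective for a flat local
`K[T]`-algebra `R` with `m = (T) R` and residue field `K`.  Mathlib only.
-/
import Mathlib

set_option autoImplicit false

namespace Fermat.Agent.S26.UFD

section Abstract

variable {P R : Type*} [CommRing P] [CommRing R] [IsLocalRing R] [Algebra P R]

/-- Approximation modulo `m ^ k` by elements of `P`. -/
theorem completionQuot_exists_sub_mem (I : Ideal P)
    (hm : I.map (algebraMap P R) = IsLocalRing.maximalIdeal R)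
    (hres : Function.Surjective ((IsLocalRing.residue R).comp (algebraMap P R))) (k : ℕ) (r : R) :
    ∃ p : P, r - algebraMap P R p ∈ IsLocalRing.maximalIdeal R ^ k := by
  have h1 : ∀ r : R, ∃ p : P, r - algebraMap P R p ∈ IsLocalRing.maximalIdeal R := by
    intro r
    obtain ⟨p, hp⟩ := hres (IsLocalRing.residue R r)
    refine ⟨p, ?_⟩
    rw [← IsLocalRing.residue_eq_zero_iff, map_sub, sub_eq_zero]
    exact hp.symm
  -- elements of `m ^ k` are approximated modulo `m ^ (k + 1)` by elements of `I ^ k`
  have h2 : ∀ k : ℕ, ∀ x ∈ (I ^ k).map (algebraMap P R), ∃ p ∈ I ^ k,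
      x - algebraMap P R p ∈ IsLocalRing.maximalIdeal R ^ (k + 1) := by
    intro k x hx
    induction hx using Submodule.span_induction with
    | mem x hx =>
      obtain ⟨a, ha, rfl⟩ := hx
      exact ⟨a, ha, by rw [sub_self]; exact Ideal.zero_mem _⟩
    | zero => exact ⟨0, Ideal.zero_mem _, by rw [map_zero, sub_zero]; exact Ideal.zero_mem _⟩
    | add x y _ _ hx hy =>
      obtain ⟨a, ha, hxa⟩ := hx
      obtain ⟨b, hb, hyb⟩ := hy
      refine ⟨a + b, Ideal.add_mem _ ha hb, ?_⟩
      have e : x + y - algebraMap P R (a + b) =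
          (x - algebraMap P R a) + (y - algebraMap P R b) := by rw [map_add]; ring
      rw [e]
      exact Ideal.add_mem _ hxa hyb
    | smul c x _ hx =>
      obtain ⟨a, ha, hxa⟩ := hx
      obtain ⟨q, hq⟩ := h1 c
      refine ⟨q * a, Ideal.mul_mem_left _ _ ha, ?_⟩
      have e : c • x - algebraMap P R (q * a) =
          c * (x - algebraMap P R a) + algebraMap P R a * (c - algebraMap P R q) := by
        rw [map_mul, smul_eq_mul]; ring
      rw [e]
      refine Ideal.add_mem _ (Ideal.mul_mem_left _ _ hxa) ?_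
      rw [pow_succ]
      refine Ideal.mul_mem_mul ?_ hq
      rw [← hm, ← Ideal.map_pow]
      exact Ideal.mem_map_of_mem _ ha
  induction k with
  | zero => exact ⟨0, by rw [pow_zero, Ideal.one_eq_top]; exact Submodule.mem_top⟩
  | succ k ih =>
    obtain ⟨p, hp⟩ := ih
    rw [← hm, ← Ideal.map_pow] at hp
    obtain ⟨a, -, ha⟩ := h2 k _ hp
    refine ⟨p + a, ?_⟩
    have e : r - algebraMap P R (p + a) = r - algebraMap P R p - algebraMap P R a := by
      rw [map_add]; ring
    rw [e]
    exact ha

/-- Contraction of `I ^ k R`, by the equational criterion of flatness. -/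
theorem completionQuot_mem_pow_of_mem_map [Module.Flat P R] (I : Ideal P)
    (hinv : ∀ b : P, b ∉ I → ∃ y : P, ∃ i ∈ I, y * b + i = 1)
    (hm : I.map (algebraMap P R) ≤ IsLocalRing.maximalIdeal R) (k : ℕ) (p : P)
    (hp : algebraMap P R p ∈ (I ^ k).map (algebraMap P R)) : p ∈ I ^ k := by
  obtain ⟨n, c, g, hsum⟩ := Submodule.mem_span_set'.mp hp
  choose a ha hag using fun i => (g i).2
  -- the relation `p • 1 - ∑ a i • c i = 0`
  let f : Option (Fin n) → P := fun o => o.elim p (fun i => - a i)
  let x : Option (Fin n) → R := fun o => o.elim 1 c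
  have hrel : ∑ o, f o • x o = 0 := by
    rw [Fintype.sum_option]
    simp only [f, x, Option.elim_none, Option.elim_some]
    rw [Algebra.smul_def, mul_one, ← hsum, ← Finset.sum_add_distrib]
    refine Finset.sum_eq_zero fun i _ => ?_
    rw [smul_eq_mul, Algebra.smul_def, map_neg, hag i]
    ring
  obtain ⟨l, A, y, hx, hA⟩ := Module.Flat.isTrivialRelation_of_sum_smul_eq_zero (R := P) (M := R) hrel
  -- all the `A none j` multiply `p` into `I ^ k`
  have hmul : ∀ j, p * A none j ∈ I ^ k := by
    intro j
    have h := hA j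
    rw [Fintype.sum_option] at h
    simp only [f, Option.elim_none, Option.elim_some] at h
    have e : p * A none j = ∑ i, a i * A (some i) j := by
      rw [← sub_eq_zero, ← h, ← sub_eq_zero]
      simp only [neg_mul, Finset.sum_neg_distrib]
      ring
    rw [e]
    exact Ideal.sum_mem _ fun i _ => Ideal.mul_mem_right _ _ (ha i)
  -- one of them is outside `I`
  have hex : ∃ j, A none j ∉ I := by
    by_contra hcon
    push Not at hcon
    have h1 : (1 : R) ∈ IsLocalRing.maximalIdeal R := by
      have h := hx none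
      simp only [x, Option.elim_none] at h
      rw [h]
      refine Ideal.sum_mem _ fun j _ => ?_
      rw [Algebra.smul_def]
      exact Ideal.mul_mem_right _ _ (hm (Ideal.mem_map_of_mem _ (hcon j)))
    exact (Ideal.ne_top_iff_one _).mp (IsLocalRing.maximalIdeal.isMaximal R).ne_top h1
  obtain ⟨j, hj⟩ := hex
  obtain ⟨u, i, hi, hui⟩ := hinv _ hj
  have hcop : IsCoprime (A none j) (i ^ k) := IsCoprime.pow_right ⟨u, 1, by rw [one_mul]; exact hui⟩
  obtain ⟨s, t, hst⟩ := hcop
  have e : p = s * (p * A none j) + t * p * i ^ k := by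
    calc p = p * (s * A none j + t * i ^ k) := by rw [hst, mul_one]
      _ = _ := by ring
  rw [e]
  exact Ideal.add_mem _ (Ideal.mul_mem_left _ _ (hmul j))
    (Ideal.mul_mem_left _ _ (Ideal.pow_mem_pow hi k))

end Abstract

/-- elements outside the ideal of the variables are invertible modulo that ideal -/
theorem completionQuot_exists_inv (K : Type*) [Field K] (g : ℕ) (b : MvPolynomial (Fin g) K)
    (hb : b ∉ MvPolynomial.idealOfVars (Fin g) K) :
    ∃ y : MvPolynomial (Fin g) K, ∃ i ∈ MvPolynomial.idealOfVars (Fin g) K, y * b + i = 1 := by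
  have h1 : b - MvPolynomial.C (MvPolynomial.coeff 0 b) ∈ MvPolynomial.idealOfVars (Fin g) K := by
    rw [← pow_one (MvPolynomial.idealOfVars (Fin g) K), MvPolynomial.mem_pow_idealOfVars_iff']
    intro x hx
    have hx0 : x = 0 := by
      rw [Nat.lt_one_iff, Finsupp.degree_eq_zero_iff] at hx
      exact hx
    rw [hx0, MvPolynomial.coeff_sub, MvPolynomial.coeff_zero_C, sub_self]
  have h0 : MvPolynomial.coeff 0 b ≠ 0 := by
    intro h
    rw [h, map_zero, sub_zero] at h1
    exact hb h1
  refine ⟨MvPolynomial.C (MvPolynomial.coeff 0 b)⁻¹,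
    - (MvPolynomial.C (MvPolynomial.coeff 0 b)⁻¹ * (b - MvPolynomial.C (MvPolynomial.coeff 0 b))),
    Ideal.neg_mem_iff _ |>.mpr (Ideal.mul_mem_left _ _ h1), ?_⟩
  have h2 : (MvPolynomial.C (MvPolynomial.coeff 0 b)⁻¹ : MvPolynomial (Fin g) K) *
      MvPolynomial.C (MvPolynomial.coeff 0 b) = 1 := by
    rw [← map_mul, inv_mul_cancel₀ h0, map_one]
  linear_combination h2

section Completion

set_option linter.unusedSectionVars false

variable (K : Type*) [Field K] (g : ℕ) (R : Type*) [CommRing R] [IsLocalRing R]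
  [IsNoetherianRing R] [Algebra (MvPolynomial (Fin g) K) R]

/-- U6a -/
theorem bijective_quotient_pow [Module.Flat (MvPolynomial (Fin g) K) R]
    (hm : (MvPolynomial.idealOfVars (Fin g) K).map (algebraMap _ R) = IsLocalRing.maximalIdeal R)
    (hres : Function.Surjective
      ((IsLocalRing.residue R).comp (algebraMap (MvPolynomial (Fin g) K) R))) (k : ℕ) :
    Function.Bijective (Ideal.quotientMap (IsLocalRing.maximalIdeal R ^ k)
      (algebraMap (MvPolynomial (Fin g) K) R)
      (show MvPolynomial.idealOfVars (Fin g) K ^ k ≤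
          (IsLocalRing.maximalIdeal R ^ k).comap (algebraMap _ R) from by
        rw [← hm, ← Ideal.map_pow]; exact Ideal.le_comap_map)) := by
  constructor
  · apply Ideal.quotientMap_injective'
    intro p hp
    rw [Ideal.mem_comap, ← hm, ← Ideal.map_pow] at hp
    exact completionQuot_mem_pow_of_mem_map _ (completionQuot_exists_inv K g) hm.le k p hp
  · intro y
    obtain ⟨r, rfl⟩ := Ideal.Quotient.mk_surjective y
    obtain ⟨p, hp⟩ := completionQuot_exists_sub_mem _ hm hres k r
    refine ⟨Ideal.Quotient.mk _ p, ?_⟩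
    rw [Ideal.quotientMap_mk, eq_comm, Ideal.Quotient.eq]
    exact hp

end Completion

end Fermat.Agent.S26.UFD
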