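/-
S26 / block UFD, leaf U1 (architect helper86; this file helper230).  Mathlib only.

**Mori descent**: a noetherian local domain `R` with a faithfully flat extension `S` which is a unique
factorisation domain is a unique factorisation domain.

Proof.  For `a b : R` put `I = (a) ⊓ (b)`.  By the equational criterion of flatness `I S = a S ⊓ b S`,
which is principal since `S` is a GCD domain.  A finitely generated ideal `I = (x₁, …, xₙ)` of the local
ring `R` such that `I S = c S` is principal: write `xᵢ = c tᵢ`, `c = ∑ sᵢ xᵢ`, so `1 = ∑ sᵢ tᵢ` and some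
`tᵢ ∉ 𝔪 S`; the relation `tⱼ xᵢ - tᵢ xⱼ = 0` is trivial (equational criterion), which gives a relation
`α xᵢ + β xⱼ = 0` in `R` with `β ∉ 𝔪`, i.e. `xᵢ ∣ xⱼ`.  So `R` is a GCD domain, and it is noetherian.
-/
import Mathlib

set_option autoImplicit false

namespace Fermat.Agent.S26.UFD

theorem isDomain_of_faithfullyFlat (R S : Type*) [CommRing R] [CommRing S] [IsDomain S]
    [Algebra R S] [Module.FaithfullyFlat R S] : IsDomain R :=
  (FaithfulSMul.algebraMap_injective R S).isDomain (algebraMap R S)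

/-- Flatness: `a S ⊓ b S ≤ ((a) ⊓ (b)) S`. -/
theorem Descent_mem_map_inf {R S : Type*} [CommRing R] [CommRing S] [Algebra R S]
    [Module.Flat R S] (a b : R) {z : S} (ha : algebraMap R S a ∣ z) (hb : algebraMap R S b ∣ z) :
    z ∈ (Ideal.span {a} ⊓ Ideal.span {b} : Ideal R).map (algebraMap R S) := by
  obtain ⟨s, hs⟩ := ha
  obtain ⟨t, ht⟩ := hb
  have hrel : ∑ i, (![a, -b] : Fin 2 → R) i • (![s, t] : Fin 2 → S) i = 0 := by
    simp only [Fin.sum_univ_two, Matrix.cons_val_zero, Matrix.cons_val_one, Algebra.smul_def,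
      map_neg]
    rw [← hs, neg_mul, ← ht, add_neg_cancel]
  obtain ⟨k, α, y, hy, hα⟩ := Module.Flat.isTrivialRelation_of_sum_smul_eq_zero (R := R) (M := S)
    (f := ![a, -b]) (x := ![s, t]) hrel
  have h0 : s = ∑ j, α 0 j • y j := hy 0
  rw [hs, h0, Finset.mul_sum]
  refine Ideal.sum_mem _ fun j _ => ?_
  rw [Algebra.smul_def, ← mul_assoc, ← map_mul]
  refine Ideal.mul_mem_right _ _ (Ideal.mem_map_of_mem _ ?_)
  have h1 := hα j
  simp only [Fin.sum_univ_two, Matrix.cons_val_zero, Matrix.cons_val_one] at h1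
  refine ⟨Ideal.mem_span_singleton.2 (Dvd.intro _ rfl), Ideal.mem_span_singleton.2 ⟨α 1 j, ?_⟩⟩
  linear_combination h1

/-- A finitely generated ideal of a local ring which becomes principal in a faithfully flat domain
is principal. -/
theorem Descent_exists_span_singleton {R S : Type*} [CommRing R] [IsLocalRing R] [CommRing S]
    [IsDomain S] [Algebra R S] [Module.FaithfullyFlat R S] (I : Ideal R) (hI : I.FG) (c : S)
    (hc : I.map (algebraMap R S) = Ideal.span {c}) : ∃ x : R, I = Ideal.span {x} := by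
  classical
  have hinj : Function.Injective (algebraMap R S) := FaithfulSMul.algebraMap_injective R S
  obtain ⟨T, rfl⟩ := hI
  have hmem : ∀ x ∈ T, c ∣ algebraMap R S x := by
    intro x hx
    rw [← Ideal.mem_span_singleton, ← hc]
    exact Ideal.mem_map_of_mem _ (Ideal.subset_span hx)
  by_cases hc0 : c = 0
  · refine ⟨0, ?_⟩
    rw [Ideal.span_singleton_eq_bot.2 rfl, Ideal.span_eq_bot]
    intro x hx
    have h1 := hmem x hx
    rw [hc0, zero_dvd_iff] at h1
    exact hinj (by rw [h1, map_zero])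
  choose! t ht using hmem
  -- `1 = ∑ sᵢ tᵢ`
  have hcmem : c ∈ Ideal.span ((algebraMap R S) '' (T : Set R)) := by
    rw [← Ideal.map_span, hc]
    exact Ideal.mem_span_singleton_self c
  have hex : ∃ x ∈ T, t x ∉ (IsLocalRing.maximalIdeal R).map (algebraMap R S) := by
    by_contra hcon
    push Not at hcon
    -- every element of `I S` lies in `c 𝔪 S`
    have hall : ∀ z ∈ Ideal.span ((algebraMap R S) '' (T : Set R)),
        ∃ w ∈ (IsLocalRing.maximalIdeal R).map (algebraMap R S), z = c * w := by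
      intro z hz
      induction hz using Submodule.span_induction with
      | mem z hz =>
        obtain ⟨x, hx, rfl⟩ := hz
        exact ⟨t x, hcon x hx, ht x hx⟩
      | zero => exact ⟨0, Ideal.zero_mem _, (mul_zero c).symm⟩
      | add z z' _ _ hz hz' =>
        obtain ⟨w, hw, rfl⟩ := hz
        obtain ⟨w', hw', rfl⟩ := hz'
        exact ⟨w + w', Ideal.add_mem _ hw hw', (mul_add c w w').symm⟩
      | smul r z _ hz =>
        obtain ⟨w, hw, rfl⟩ := hz
        exact ⟨r * w, Ideal.mul_mem_left _ r hw, by rw [smul_eq_mul]; ring⟩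
    obtain ⟨w, hw, hcw⟩ := hall c hcmem
    have hw1 : w = 1 := by
      have h1 : c * w = c * 1 := by rw [← hcw, mul_one]
      exact mul_left_cancel₀ hc0 h1
    rw [hw1, ← Ideal.eq_top_iff_one] at hw
    have h2 := Ideal.comap_map_eq_self_of_faithfullyFlat (B := S) (IsLocalRing.maximalIdeal R)
    rw [hw, Ideal.comap_top] at h2
    exact (IsLocalRing.maximalIdeal.isMaximal R).ne_top h2.symm
  obtain ⟨x₀, hx₀, hx₀m⟩ := hex
  refine ⟨x₀, le_antisymm ?_ ?_⟩
  swap
  · rw [Ideal.span_singleton_le_iff_mem]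
    exact Ideal.subset_span hx₀
  rw [Ideal.span_le]
  intro x hx
  rw [SetLike.mem_coe, Ideal.mem_span_singleton]
  have hrel : ∑ i, (![x₀, x] : Fin 2 → R) i • (![t x, - t x₀] : Fin 2 → S) i = 0 := by
    simp only [Fin.sum_univ_two, Matrix.cons_val_zero, Matrix.cons_val_one, Algebra.smul_def]
    rw [ht x₀ hx₀, ht x hx]
    ring
  obtain ⟨k, α, y, hy, hα⟩ := Module.Flat.isTrivialRelation_of_sum_smul_eq_zero (R := R) (M := S)
    (f := ![x₀, x]) (x := ![t x, - t x₀]) hrel
  have h1 : - t x₀ = ∑ j, α 1 j • y j := hy 1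
  have hexj : ∃ j, α 1 j ∉ IsLocalRing.maximalIdeal R := by
    by_contra hcon
    push Not at hcon
    apply hx₀m
    rw [← neg_neg (t x₀), h1]
    refine Ideal.neg_mem_iff _ |>.2 (Ideal.sum_mem _ fun j _ => ?_)
    rw [Algebra.smul_def]
    exact Ideal.mul_mem_right _ _ (Ideal.mem_map_of_mem _ (hcon j))
  obtain ⟨j, hj⟩ := hexj
  have hu : IsUnit (α 1 j) := by
    by_contra hnu
    exact hj ((IsLocalRing.mem_maximalIdeal _).2 hnu)
  obtain ⟨u, hu⟩ := hu
  have h2 := hα j
  simp only [Fin.sum_univ_two, Matrix.cons_val_zero, Matrix.cons_val_one] at h2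
  rw [← hu] at h2
  refine ⟨- (α 0 j * (↑u⁻¹ : R)), ?_⟩
  have h3 : (u : R) * (↑u⁻¹ : R) = 1 := Units.mul_inv u
  linear_combination (↑u⁻¹ : R) * h2 - x * h3

theorem ufd_of_faithfullyFlat (R S : Type*) [CommRing R] [IsDomain R] [IsLocalRing R]
    [IsNoetherianRing R] [CommRing S] [IsDomain S] [UniqueFactorizationMonoid S]
    [Algebra R S] [Module.FaithfullyFlat R S] : UniqueFactorizationMonoid R := by
  have hlcmS := (isGCDMonoid_iff_exists_lcm (α := S)).1 inferInstance
  have hG : IsGCDMonoid R := by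
    refine isGCDMonoid_iff_exists_lcm.2 ⟨inferInstance, fun a b => ?_⟩
    obtain ⟨c, hc⟩ := hlcmS.2 (algebraMap R S a) (algebraMap R S b)
    have hmap : (Ideal.span {a} ⊓ Ideal.span {b} : Ideal R).map (algebraMap R S) =
        Ideal.span {c} := by
      apply le_antisymm
      · rw [Ideal.map_le_iff_le_comap]
        rintro z ⟨hza, hzb⟩
        rw [SetLike.mem_coe, Ideal.mem_span_singleton] at hza hzb
        rw [Ideal.mem_comap, Ideal.mem_span_singleton, ← hc]
        exact ⟨map_dvd (algebraMap R S) hza, map_dvd (algebraMap R S) hzb⟩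
      · rw [Ideal.span_singleton_le_iff_mem]
        obtain ⟨h1, h2⟩ := (hc c).2 dvd_rfl
        exact Descent_mem_map_inf a b h1 h2
    obtain ⟨x, hx⟩ := Descent_exists_span_singleton (S := S) _
      (IsNoetherian.noetherian (Ideal.span {a} ⊓ Ideal.span {b} : Ideal R)) c hmap
    refine ⟨x, fun d => ?_⟩
    rw [← Ideal.mem_span_singleton, ← Ideal.mem_span_singleton, ← Ideal.mem_span_singleton, ← hx]
    exact Iff.rfl
  exact ufm_of_decomposition_of_wfDvdMonoid

end Fermat.Agent.S26.UFD
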