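/-
S26 / block UFD, leaf U4 (helper217): a linear change of variables makes a nonzero power series over
an infinite field regular in `X_0`.  Mathlib only.
-/
import Mathlib

set_option autoImplicit false

open scoped Polynomial PowerSeries

namespace Fermat.Agent.S26.UFD

open MvPowerSeries

variable {K : Type*} [Field K] {n : ℕ}

/-- the linear substitution `X_0 ↦ c_0 X_0`, `X_s ↦ X_s + c_s X_0` (`s ≠ 0`). -/
noncomputable def coordFam (c : Fin (n + 1) → K) : Fin (n + 1) → MvPowerSeries (Fin (n + 1)) K :=
  fun s => (if s = 0 then 0 else X s) + C (c s) * X 0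

/-- the projection `X_0 ↦ X_0`, `X_s ↦ 0` (`s ≠ 0`). -/
noncomputable def coordProj : Fin (n + 1) → MvPowerSeries (Fin (n + 1)) K :=
  fun s => if s = 0 then X 0 else 0

/-- the line `X_s ↦ c_s X_0`. -/
noncomputable def coordLine (c : Fin (n + 1) → K) : Fin (n + 1) → MvPowerSeries (Fin (n + 1)) K :=
  fun s => C (c s) * X 0

theorem coord_hasSubst_fam (c : Fin (n + 1) → K) : HasSubst (coordFam c) := by
  refine hasSubst_of_constantCoeff_zero fun s => ?_
  unfold coordFam
  split_ifs <;> simp

theorem coord_hasSubst_proj : HasSubst (coordProj : Fin (n + 1) → MvPowerSeries (Fin (n + 1)) K) := by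
  refine hasSubst_of_constantCoeff_zero fun s => ?_
  unfold coordProj
  split_ifs <;> simp

theorem coord_hasSubst_line (c : Fin (n + 1) → K) : HasSubst (coordLine c) := by
  refine hasSubst_of_constantCoeff_zero fun s => ?_
  unfold coordLine
  simp

/-- composition of two linear substitutions which are inverse to each other. -/
theorem coord_subst_fam_fam (c c' : Fin (n + 1) → K) (h0 : c' 0 * c 0 = 1)
    (hs : ∀ s, s ≠ 0 → c s + c' s * c 0 = 0) (f : MvPowerSeries (Fin (n + 1)) K) :
    subst (coordFam c) (subst (coordFam c') f) = f := by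
  rw [subst_comp_subst_apply (coord_hasSubst_fam c') (coord_hasSubst_fam c)]
  have h : (fun s => subst (coordFam c) (coordFam c' s)) =
      (X : Fin (n + 1) → MvPowerSeries (Fin (n + 1)) K) := by
    funext s
    have hc := coord_hasSubst_fam c
    have e0 : coordFam c 0 = C (c 0) * X 0 := by simp [coordFam]
    by_cases hs0 : s = 0
    · subst hs0
      have e1 : coordFam c' 0 = C (c' 0) * X 0 := by simp [coordFam]
      rw [e1, subst_mul hc, subst_C, subst_X hc, e0, ← mul_assoc, ← map_mul, h0, map_one, one_mul]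
    · have e1 : coordFam c' s = X s + C (c' s) * X 0 := by simp [coordFam, hs0]
      have e2 : coordFam c s = X s + C (c s) * X 0 := by simp [coordFam, hs0]
      rw [e1, subst_add hc, subst_mul hc, subst_C, subst_X hc, subst_X hc, e0, e2, add_assoc,
        ← mul_assoc, ← map_mul, ← add_mul, ← map_add, hs s hs0, map_zero, zero_mul, add_zero]
  rw [h, subst_self]
  rfl

/-- the linear substitution is an automorphism. -/
theorem coord_exists_ringEquiv (c : Fin (n + 1) → K) (h0 : c 0 ≠ 0) :
    ∃ e : MvPowerSeries (Fin (n + 1)) K ≃+* MvPowerSeries (Fin (n + 1)) K,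
      ∀ f, e f = subst (coordFam c) f := by
  let c' : Fin (n + 1) → K := fun s => if s = 0 then (c 0)⁻¹ else -(c s * (c 0)⁻¹)
  have hc'0 : c' 0 = (c 0)⁻¹ := by simp [c']
  have hc's : ∀ s, s ≠ 0 → c' s = -(c s * (c 0)⁻¹) := fun s hs => by simp [c', hs]
  refine ⟨RingEquiv.ofRingHom (substAlgHom (coord_hasSubst_fam c)).toRingHom
    (substAlgHom (coord_hasSubst_fam c')).toRingHom ?_ ?_, fun f => ?_⟩
  · ext1 f
    show substAlgHom (coord_hasSubst_fam c) (substAlgHom (coord_hasSubst_fam c') f) = f
    rw [substAlgHom_apply, substAlgHom_apply]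
    refine coord_subst_fam_fam c c' ?_ ?_ f
    · rw [hc'0, inv_mul_cancel₀ h0]
    · intro s hs
      rw [hc's s hs]
      field_simp
      ring
  · ext1 f
    show substAlgHom (coord_hasSubst_fam c') (substAlgHom (coord_hasSubst_fam c) f) = f
    rw [substAlgHom_apply, substAlgHom_apply]
    refine coord_subst_fam_fam c' c ?_ ?_ f
    · rw [hc'0, mul_inv_cancel₀ h0]
    · intro s hs
      rw [hc's s hs, hc'0]
      ring
  · show substAlgHom (coord_hasSubst_fam c) f = _
    rw [substAlgHom_apply]

/-- restriction of the transformed series to the `X_0`-axis. -/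
theorem coord_subst_proj_fam (c : Fin (n + 1) → K) (f : MvPowerSeries (Fin (n + 1)) K) :
    subst coordProj (subst (coordFam c) f) = subst (coordLine c) f := by
  rw [subst_comp_subst_apply (coord_hasSubst_fam c) coord_hasSubst_proj]
  congr 1
  funext s
  have hp := coord_hasSubst_proj (K := K) (n := n)
  have e0 : (coordProj 0 : MvPowerSeries (Fin (n + 1)) K) = X 0 := by simp [coordProj]
  by_cases hs0 : s = 0
  · subst hs0
    have e1 : coordFam c 0 = C (c 0) * X 0 := by simp [coordFam]
    rw [e1, subst_mul hp, subst_C, subst_X hp, e0, coordLine]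
  · have e1 : coordFam c s = X s + C (c s) * X 0 := by simp [coordFam, hs0]
    have e2 : (coordProj s : MvPowerSeries (Fin (n + 1)) K) = 0 := by simp [coordProj, hs0]
    rw [e1, subst_add hp, subst_mul hp, subst_C, subst_X hp, subst_X hp, e0, e2, zero_add, coordLine]

/-- a series all of whose pure `X_0`-coefficients vanish restricts to `0` on the `X_0`-axis. -/
theorem coord_subst_proj_eq_zero (g : MvPowerSeries (Fin (n + 1)) K)
    (hg : ∀ k : ℕ, coeff (Finsupp.cons k (0 : Fin n →₀ ℕ)) g = 0) :
    subst (coordProj : Fin (n + 1) → MvPowerSeries (Fin (n + 1)) K) g = 0 := by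
  ext e
  rw [coeff_subst coord_hasSubst_proj, map_zero]
  refine finsum_eq_zero_of_forall_eq_zero fun d => ?_
  by_cases h : ∃ j : Fin n, d j.succ ≠ 0
  · obtain ⟨j, hj⟩ := h
    have h1 : (d.prod fun s e => (coordProj s : MvPowerSeries (Fin (n + 1)) K) ^ e) = 0 := by
      refine Finset.prod_eq_zero (i := j.succ) (Finsupp.mem_support_iff.2 hj) ?_
      have e2 : (coordProj j.succ : MvPowerSeries (Fin (n + 1)) K) = 0 := by
        simp [coordProj, Fin.succ_ne_zero]
      show (coordProj j.succ : MvPowerSeries (Fin (n + 1)) K) ^ (d j.succ) = 0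
      rw [e2, zero_pow hj]
    rw [h1, map_zero, smul_zero]
  · push Not at h
    have h1 : d = Finsupp.cons (d 0) (0 : Fin n →₀ ℕ) := by
      rw [← Finsupp.cons_tail d]
      congr 1
      ext j
      simpa [Finsupp.tail_apply] using h j
    rw [h1, hg, zero_smul]

/-- the monomials along the line. -/
theorem coord_prod_line (c : Fin (n + 1) → K) (d : Fin (n + 1) →₀ ℕ) :
    (d.prod fun s e => coordLine c s ^ e) =
      C (d.prod fun s e => c s ^ e) * X 0 ^ (∑ i, d i) := by
  unfold coordLine
  simp only [mul_pow]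
  rw [Finsupp.prod_mul, map_finsuppProd]
  congr 1
  · simp only [map_pow]
  · rw [Finsupp.prod, Finset.prod_pow_eq_pow_sum]
    congr 1
    exact Finset.sum_subset (Finset.subset_univ _) fun i _ hi => Finsupp.notMem_support_iff.1 hi

/-- the homogeneous part of degree `k`, as a polynomial. -/
noncomputable def coordPart (f : MvPowerSeries (Fin (n + 1)) K) (k : ℕ) :
    MvPolynomial (Fin (n + 1)) K :=
  ∑ d ∈ Finset.finsuppAntidiag (Finset.univ : Finset (Fin (n + 1))) k,
    MvPolynomial.monomial d (coeff d f)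

theorem coord_coeff_part (f : MvPowerSeries (Fin (n + 1)) K) (m : Fin (n + 1) →₀ ℕ) :
    (coordPart f (∑ i, m i)).coeff m = coeff m f := by
  classical
  rw [coordPart, MvPolynomial.coeff_sum]
  simp only [MvPolynomial.coeff_monomial]
  rw [Finset.sum_ite_eq' , if_pos]
  simp

/-- the coefficients of the restriction to the line. -/
theorem coord_coeff_subst_line (c : Fin (n + 1) → K) (f : MvPowerSeries (Fin (n + 1)) K) (k : ℕ) :
    coeff (Finsupp.single 0 k) (subst (coordLine c) f) = MvPolynomial.eval c (coordPart f k) := by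
  classical
  rw [coeff_subst (coord_hasSubst_line c), coordPart, map_sum]
  simp only [coord_prod_line, coeff_C_mul, coeff_X_pow, MvPolynomial.eval_monomial, smul_eq_mul]
  rw [finsum_eq_sum_of_support_subset (s := Finset.finsuppAntidiag Finset.univ k)]
  · refine Finset.sum_congr rfl fun d hd => ?_
    have h1 : ∑ i, d i = k := (Finset.mem_finsuppAntidiag.1 hd).1
    rw [h1, if_pos rfl, mul_one]
  · intro d hd
    rw [Function.mem_support] at hd
    rw [Finset.mem_coe, Finset.mem_finsuppAntidiag]
    refine ⟨?_, Finset.subset_univ _⟩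
    by_contra hne
    apply hd
    rw [if_neg, mul_zero, mul_zero]
    intro h2
    apply hne
    have := congrArg (fun t : Fin (n + 1) →₀ ℕ => t 0) h2
    simpa using this.symm

/-- a nonzero polynomial over an infinite field does not vanish at some point with `c 0 ≠ 0`. -/
theorem coord_exists_eval_ne_zero [Infinite K] (Q : MvPolynomial (Fin (n + 1)) K) (hQ : Q ≠ 0) :
    ∃ c : Fin (n + 1) → K, c 0 ≠ 0 ∧ MvPolynomial.eval c Q ≠ 0 := by
  by_contra hcon
  push Not at hcon
  have h1 : MvPolynomial.X 0 * Q = 0 := by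
    refine MvPolynomial.funext fun c => ?_
    rw [map_mul, MvPolynomial.eval_X, map_zero]
    by_cases h0 : c 0 = 0
    · rw [h0, zero_mul]
    · rw [hcon c h0, mul_zero]
  rcases mul_eq_zero.1 h1 with h2 | h2
  · exact MvPolynomial.X_ne_zero _ h2
  · exact hQ h2

theorem exists_ringEquiv_map_ne_zero (K : Type*) [Field K] [Infinite K] (n : ℕ)
    (f : MvPowerSeries (Fin (n + 1)) K) (hf : f ≠ 0) :
    ∃ e : MvPowerSeries (Fin (n + 1)) K ≃+* MvPowerSeries (Fin (n + 1)) K,
      (MvPowerSeries.finSuccEquiv K n (e f)).map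
        (IsLocalRing.residue (MvPowerSeries (Fin n) K)) ≠ 0 := by
  obtain ⟨m, hm⟩ : ∃ m, coeff m f ≠ 0 := by
    by_contra hcon
    push Not at hcon
    exact hf (MvPowerSeries.ext fun m => by rw [hcon m, map_zero])
  have hQ : coordPart f (∑ i, m i) ≠ 0 := by
    intro h0
    apply hm
    rw [← coord_coeff_part f m, h0, MvPolynomial.coeff_zero]
  obtain ⟨c, hc0, hc⟩ := coord_exists_eval_ne_zero _ hQ
  obtain ⟨e, he⟩ := coord_exists_ringEquiv c hc0
  refine ⟨e, fun h0 => hc ?_⟩
  rw [← coord_coeff_subst_line, ← coord_subst_proj_fam, ← he,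
    coord_subst_proj_eq_zero (e f), map_zero]
  intro k
  have h1 := congrArg (PowerSeries.coeff k) h0
  rw [PowerSeries.coeff_map, map_zero, IsLocalRing.residue_eq_zero_iff,
    IsLocalRing.mem_maximalIdeal, mem_nonunits_iff, MvPowerSeries.isUnit_iff_constantCoeff,
    isUnit_iff_ne_zero, not_not, ← coeff_zero_eq_constantCoeff_apply,
    coeff_coeff_finSuccEquiv] at h1
  exact h1

end Fermat.Agent.S26.UFD
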