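/-
S26 / block UFD, leaf U5: `K⟦X₁, …, Xₙ⟧` is factorial for an infinite field `K` (assembly of U2, U3, U4).
-/
import Fermat.Agent.S26.UFD.PowerSeriesOf
import Fermat.Agent.S26.UFD.Complete
import Fermat.Agent.S26.UFD.Weierstrass
import Fermat.Agent.S26.UFD.Coord

set_option autoImplicit false

open scoped Polynomial PowerSeries

namespace Fermat.Agent.S26.UFD

theorem ufd_mvPowerSeries (K : Type*) [Field K] [Infinite K] (n : ℕ) :
    UniqueFactorizationMonoid (MvPowerSeries (Fin n) K) :=
  ufd_mvPowerSeries_of K
    (fun n hU f hf => by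
      have := hU
      have : IsDomain (MvPowerSeries (Fin n) K) := NoZeroDivisors.to_isDomain _
      have := isAdicComplete_mvPowerSeries K n
      exact exists_prime_factors_of_map_ne_zero _ f hf)
    (exists_ringEquiv_map_ne_zero K) n

end Fermat.Agent.S26.UFD
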