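/-
S26 / block UFD, leaf U7 (task 3086, helper196): the export of the block, as an assembly of
U1 (Mori descent), U5 (`K[[T_1..T_g]]` is factorial) and U6 (`R → K[[T_1..T_g]]` faithfully flat).
`ufd_of_flat_of_map_idealOfVars_of` takes the three sibling statements as explicit hypotheses.
-/
import Fermat.Agent.S26.UFD.Descent
import Fermat.Agent.S26.UFD.PowerSeries
import Fermat.Agent.S26.UFD.Completion
import Fermat.Agent.S26.UFD.CompletionIso
import Fermat.Agent.S26.UFD.CompletionQuot
import Fermat.Agent.S26.UFD.CompletionFlat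

set_option autoImplicit false

namespace Fermat.Agent.S26.UFD

/-- power series over a field form a domain (no instance in Mathlib). -/
theorem Local_isDomain_mvPowerSeries (K : Type*) [Field K] (σ : Type*) :
    IsDomain (MvPowerSeries σ K) := NoZeroDivisors.to_isDomain _

/-- U7, with the statements of U1, U5, U6 (for `R` and `S = K[[T_1..T_g]]`) as hypotheses. -/
theorem ufd_of_flat_of_map_idealOfVars_of (K : Type*) [Field K] (g : ℕ) (R : Type*)
    [CommRing R] [IsLocalRing R] [IsNoetherianRing R]
    (hU1a : ∀ (_ : Algebra R (MvPowerSeries (Fin g) K)),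
      Module.FaithfullyFlat R (MvPowerSeries (Fin g) K) → IsDomain R)
    (hU1b : ∀ (_ : IsDomain R) (_ : Algebra R (MvPowerSeries (Fin g) K)),
      Module.FaithfullyFlat R (MvPowerSeries (Fin g) K) → UniqueFactorizationMonoid R)
    (hU6 : ∃ _ : Algebra R (MvPowerSeries (Fin g) K),
      Module.FaithfullyFlat R (MvPowerSeries (Fin g) K)) :
    ∃ _ : IsDomain R, UniqueFactorizationMonoid R := by
  obtain ⟨alg, hff⟩ := hU6
  exact ⟨hU1a alg hff, hU1b (hU1a alg hff) alg hff⟩

/-- U6 (assembly of U6a, U6b, U6c and `exists_faithfullyFlat_mvPowerSeries_of`). -/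
theorem Local_exists_faithfullyFlat (K : Type*) [Field K] (g : ℕ) (R : Type*) [CommRing R]
    [IsLocalRing R] [IsNoetherianRing R] [Algebra (MvPolynomial (Fin g) K) R]
    [Module.Flat (MvPolynomial (Fin g) K) R]
    (hm : (MvPolynomial.idealOfVars (Fin g) K).map (algebraMap _ R) = IsLocalRing.maximalIdeal R)
    (hres : Function.Surjective
      ((IsLocalRing.residue R).comp (algebraMap (MvPolynomial (Fin g) K) R))) :
    ∃ _ : Algebra R (MvPowerSeries (Fin g) K),
      Module.FaithfullyFlat R (MvPowerSeries (Fin g) K) :=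
  exists_faithfullyFlat_mvPowerSeries_of K g R
    (nonempty_adicCompletion_ringEquiv _ _ (algebraMap (MvPolynomial (Fin g) K) R) _ _ _
      (fun k => bijective_quotient_pow K g R hm hres k))
    (faithfullyFlat_adicCompletion R)

/-- **U7**: the export of block UFD. -/
theorem ufd_of_flat_of_map_idealOfVars (K : Type*) [Field K] [Infinite K] (g : ℕ) (R : Type*)
    [CommRing R] [IsLocalRing R] [IsNoetherianRing R] [Algebra (MvPolynomial (Fin g) K) R]
    [Module.Flat (MvPolynomial (Fin g) K) R]
    (hm : (MvPolynomial.idealOfVars (Fin g) K).map (algebraMap _ R) = IsLocalRing.maximalIdeal R)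
    (hres : Function.Surjective
      ((IsLocalRing.residue R).comp (algebraMap (MvPolynomial (Fin g) K) R))) :
    ∃ _ : IsDomain R, UniqueFactorizationMonoid R :=
  have := ufd_mvPowerSeries K g
  have := Local_isDomain_mvPowerSeries K (Fin g)
  ufd_of_flat_of_map_idealOfVars_of K g R
    (fun _ _ => isDomain_of_faithfullyFlat R (MvPowerSeries (Fin g) K))
    (fun _ _ _ => ufd_of_faithfullyFlat R (MvPowerSeries (Fin g) K))
    (Local_exists_faithfullyFlat K g R hm hres)

end Fermat.Agent.S26.UFD
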