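/-
S26 / block UFD, leaf U8 (architect helper86, proof helper131).  Mathlib only.

The transcendence degree drops modulo a nonzero prime ideal of a domain of finite transcendence degree.
-/
import Mathlib

set_option autoImplicit false

namespace Fermat.Agent.S26.UFD

open Cardinal

theorem trdeg_quotient_lt (K B : Type*) [Field K] [CommRing B] [IsDomain B] [Algebra K B]
    (Q : Ideal B) [Q.IsPrime] (hQ : Q ≠ ⊥) (hfin : Algebra.trdeg K B < Cardinal.aleph0) :
    Algebra.trdeg K (B ⧸ Q) < Algebra.trdeg K B := by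
  have hsurj : Function.Surjective (Ideal.Quotient.mkₐ K Q) := Ideal.Quotient.mkₐ_surjective K Q
  refine lt_of_le_of_ne (trdeg_le_of_surjective (Ideal.Quotient.mkₐ K Q) hsurj) ?_
  intro heq
  -- a transcendence basis of the quotient and a lift of it
  obtain ⟨ι, x, hx⟩ := exists_isTranscendenceBasis' K (B ⧸ Q)
  have hcard : #ι = Algebra.trdeg K (B ⧸ Q) := hx.cardinalMk_eq_trdeg
  choose y hy using fun i => hsurj (x i)
  have hcomp : (Ideal.Quotient.mkₐ K Q) ∘ y = x := funext hy
  have hyind : AlgebraicIndependent K y :=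
    AlgebraicIndependent.of_comp (Ideal.Quotient.mkₐ K Q) (by rw [hcomp]; exact hx.1)
  have hybasis : IsTranscendenceBasis K y :=
    hyind.isTranscendenceBasis_of_trdeg_le hfin (by rw [hcard, heq])
  have halg : Algebra.IsAlgebraic (Algebra.adjoin K (Set.range y)) B := hybasis.isAlgebraic
  -- a nonzero element of `Q`
  obtain ⟨q, hqQ, hq0⟩ := Submodule.exists_mem_ne_zero_of_ne_bot hQ
  obtain ⟨s, hs0, hdvd⟩ := (halg.isAlgebraic q).exists_nonzero_dvd
    (mem_nonZeroDivisors_of_ne_zero hq0)
  have hsQ : (s : B) ∈ Q := Q.mem_of_dvd hdvd hqQ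
  -- `s` is a polynomial in the `y i`
  have hsmem : (s : B) ∈ (MvPolynomial.aeval y : MvPolynomial ι K →ₐ[K] B).range := by
    rw [← Algebra.adjoin_range_eq_range_aeval]
    exact s.2
  obtain ⟨P, hP⟩ := hsmem
  have hP' : MvPolynomial.aeval y P = (s : B) := hP
  have h0 : MvPolynomial.aeval x P = 0 := by
    rw [← hcomp]
    have h1 := MvPolynomial.comp_aeval_apply (f := y) (Ideal.Quotient.mkₐ K Q) P
    rw [hP'] at h1
    have h2 : Ideal.Quotient.mkₐ K Q (s : B) = 0 := Ideal.Quotient.eq_zero_iff_mem.2 hsQ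
    rw [h2] at h1
    exact h1.symm
  have hP0 : P = 0 := hx.1 (by rw [h0, map_zero])
  apply hs0
  apply Subtype.ext
  rw [← hP', hP0, map_zero]
  rfl

end Fermat.Agent.S26.UFD
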