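/-
S26 / block UFD, leaf U6c (architect helper86, proof helper183): the completion of a noetherian
local ring is faithfully flat.  Mathlib only.
-/
import Mathlib

set_option autoImplicit false

namespace Fermat.Agent.S26.UFD

/-- U6c -/
theorem faithfullyFlat_adicCompletion (R : Type*) [CommRing R] [IsLocalRing R]
    [IsNoetherianRing R] :
    Module.FaithfullyFlat R (AdicCompletion (IsLocalRing.maximalIdeal R) R) := by
  refine ⟨fun m hm htop => ?_⟩
  have hmm : m = IsLocalRing.maximalIdeal R := IsLocalRing.eq_maximalIdeal hm
  subst hmm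
  have hkill : ∀ x ∈ (IsLocalRing.maximalIdeal R • ⊤ :
      Submodule R (AdicCompletion (IsLocalRing.maximalIdeal R) R)),
      AdicCompletion.eval (IsLocalRing.maximalIdeal R) R 1 x = 0 := by
    intro x hx
    induction hx using Submodule.smul_induction_on' with
    | smul r hr y _ =>
      obtain ⟨z, hz⟩ := Submodule.mkQ_surjective _
        (AdicCompletion.eval (IsLocalRing.maximalIdeal R) R 1 y)
      rw [map_smul, ← hz, ← map_smul, Submodule.mkQ_apply, Submodule.Quotient.mk_eq_zero]
      exact Submodule.smul_mem_smul (by simpa using hr) Submodule.mem_top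
    | add x _ y _ hx hy => rw [map_add, hx, hy, add_zero]
  have h1 := hkill (AdicCompletion.of _ R 1) (by rw [htop]; exact Submodule.mem_top)
  rw [AdicCompletion.eval_of, Submodule.mkQ_apply, Submodule.Quotient.mk_eq_zero, pow_one,
    smul_eq_mul, Ideal.mul_top] at h1
  exact (Ideal.ne_top_iff_one _).1 hm.ne_top h1

end Fermat.Agent.S26.UFD
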