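/-
S26 / block UFD: FINAL ASSEMBLY of U6 and U7 (the export of the block) from the landed leaves
U1 (`Descent`), U5 (`PowerSeries`), U6a (`CompletionQuot`), U6b (`CompletionIso`), U6c (`CompletionFlat`),
U6 (`Completion`, conditional form) and U7 (`Local`, conditional form).
-/
import Fermat.Agent.S26.UFD.Descent
import Fermat.Agent.S26.UFD.PowerSeries
import Fermat.Agent.S26.UFD.CompletionQuot
import Fermat.Agent.S26.UFD.CompletionIso
import Fermat.Agent.S26.UFD.CompletionFlat
import Fermat.Agent.S26.UFD.Completion
import Fermat.Agent.S26.UFD.Local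

set_option autoImplicit false

namespace Fermat.Agent.S26.UFD

/-- U6 -/
theorem exists_faithfullyFlat_mvPowerSeries (K : Type*) [Field K] (g : ℕ) (R : Type*) [CommRing R]
    [IsLocalRing R] [IsNoetherianRing R] [Algebra (MvPolynomial (Fin g) K) R]
    [Module.Flat (MvPolynomial (Fin g) K) R]
    (hm : (MvPolynomial.idealOfVars (Fin g) K).map (algebraMap _ R) = IsLocalRing.maximalIdeal R)
    (hres : Function.Surjective
      ((IsLocalRing.residue R).comp (algebraMap (MvPolynomial (Fin g) K) R))) :
    ∃ _ : Algebra R (MvPowerSeries (Fin g) K),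
      Module.FaithfullyFlat R (MvPowerSeries (Fin g) K) :=
  exists_faithfullyFlat_mvPowerSeries_of K g R
    (nonempty_adicCompletion_ringEquiv _ _ (algebraMap (MvPolynomial (Fin g) K) R) _ _ _
      (fun k => bijective_quotient_pow K g R hm hres k))
    (faithfullyFlat_adicCompletion R)

-- U7 (`ufd_of_flat_of_map_idealOfVars`, the export of the block) is proved in `UFD/Local.lean`.

end Fermat.Agent.S26.UFD
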